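import Mathlib
import Fermat.Agent.S37.H157.NormKron

/-!
# Row 38, WALL-p, leaf HECKE-FUN (helper223), part 1: NORM-ID in every characteristic

`k` ANY field, `ℓ ∤ N` a prime, the primes dividing `N ℓ` invertible in `k`, `ζ ∈ k` a primitive
`ℓ`-th root of unity.  `F = k(j(q^d) : d ∣ N) ⊆ F' = k(j(q^d) : d ∣ N ℓ)` inside `k((q))`.

* `isSeparable_of_embeddings` : a finite field extension with `[E : F]` pairwise distinct
  embeddings over a fixed embedding of `F` is separable (Mathlib only);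
* `hasModPolys_of_char`, `finrank_algIncl_of_char` : the two inputs of helper157's NORM-ID from
  the landed S28 degree theory, in every admissible characteristic;
* `isSeparable_algIncl` : `F' / F` is separable;
* `norm_betaHom_of_char` : `(N_{F'/F}(y(q^ℓ)))(q^ℓ) = y(q^{ℓ²}) ∏_b y(ζ^b q)`;
* `norm_betaHom_eq_kronNorm_of_char` : **NORM-ID** `N_{F'/F}(y(q^ℓ)) = kronNorm ℓ y` in `k((q))`
  (the characteristic-zero case is helper157's `norm_betaHom_eq_kronNorm`).
-/

set_option autoImplicit false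
set_option linter.unusedSectionVars false
set_option linter.style.haveILetI false

noncomputable section

open ModularCurve HahnSeries Polynomial IntermediateField
open Fermat.Agent.S28.H626 Fermat.Agent.S37.H157

namespace Fermat.Agent.Ribet.H223.HF

/-- A finite field extension `E / F` admitting `[E : F]` pairwise distinct ring homomorphisms
`E → Ω` with the same restriction to `F` is separable. -/
theorem isSeparable_of_embeddings {F E Ω : Type*} [Field F] [Field E] [Field Ω] [Algebra F E]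
    [FiniteDimensional F E] (ι : F →+* Ω) {n : ℕ} (hn : Module.finrank F E = n)
    (σ : Fin n → (E →+* Ω)) (hσ : ∀ i (a : F), σ i (algebraMap F E a) = ι a)
    (hinj : Function.Injective σ) : Algebra.IsSeparable F E := by
  classical
  letI : Algebra F (AlgebraicClosure Ω) := ((algebraMap Ω (AlgebraicClosure Ω)).comp ι).toAlgebra
  have halg : ∀ a : F, algebraMap F (AlgebraicClosure Ω) a
      = algebraMap Ω (AlgebraicClosure Ω) (ι a) := fun a => rfl
  let τ : Fin n → (E →ₐ[F] AlgebraicClosure Ω) := fun i =>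
    { toRingHom := (algebraMap Ω (AlgebraicClosure Ω)).comp (σ i)
      commutes' := fun a => by
        show algebraMap Ω (AlgebraicClosure Ω) (σ i (algebraMap F E a)) = _
        rw [hσ i a, halg] }
  have hτ : ∀ i (y : E), τ i y = algebraMap Ω (AlgebraicClosure Ω) (σ i y) := fun i y => rfl
  have hτinj : Function.Injective τ := by
    intro i j hij
    apply hinj
    ext y
    have := congrArg (fun f : E →ₐ[F] AlgebraicClosure Ω => f y) hij
    simp only [hτ] at this
    exact (algebraMap Ω (AlgebraicClosure Ω)).injective this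
  rw [← Field.finSepDegree_eq_finrank_iff]
  apply le_antisymm (Field.finSepDegree_le_finrank F E)
  rw [Field.finSepDegree_eq_of_isAlgClosed F E (AlgebraicClosure Ω), hn]
  have h := Nat.card_le_card_of_injective τ hτinj
  rwa [Nat.card_eq_fintype_card, Fintype.card_fin] at h

section Inputs

variable (k : Type*) [Field k]

/-- Modular polynomials at the primes dividing `M`, all invertible in `k`. -/
theorem hasModPolys_of_char (M : ℕ) (hchar : ∀ r : ℕ, r.Prime → r ∣ M → (r : k) ≠ 0) :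
    HasModPolys k M :=
  Fermat.Agent.S28.H867.hasModPolys k M
    (fun p hp _ _ => Fermat.Agent.S28.H807.nonempty_modPolyData p hp) hchar

/-- `[F' : F] = ℓ + 1`. -/
theorem finrank_algIncl_of_char (N ℓ : ℕ) [NeZero N] [NeZero ℓ] (hℓ : ℓ.Prime) (hℓN : ¬ ℓ ∣ N)
    (hchar : ∀ r : ℕ, r.Prime → r ∣ N * ℓ → (r : k) ≠ 0) :
    @Module.finrank ↥(modularFunctionFieldFullC k N)
      ↥(modularFunctionFieldFullC k (N * ℓ)) _ _ (algIncl k N ℓ).toModule = ℓ + 1 := by
  have h := Fermat.Agent.S28.H988.relfinrank_full_mul_prime k N ℓ (NeZero.ne N) hℓ hchar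
  rw [if_neg hℓN, relfinrank_eq_finrank_of_le (full_le_full_mul k N ℓ)] at h
  rw [← h]
  letI := algIncl k N ℓ
  let e : ↥(modularFunctionFieldFullC k (N * ℓ)) ≃ₗ[↥(modularFunctionFieldFullC k N)]
      ↥(extendScalars (full_le_full_mul k N ℓ)) :=
    { toFun := fun x => ⟨x.1, x.2⟩
      invFun := fun y => ⟨y.1, y.2⟩
      map_add' := fun _ _ => rfl
      map_smul' := fun _ _ => rfl
      left_inv := fun _ => rfl
      right_inv := fun _ => rfl }
  exact e.finrank_eq

end Inputs

section Norm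

variable {k : Type*} [Field k] {N ℓ : ℕ} [NeZero N] [NeZero ℓ]

/-- `F' / F` is finite. -/
theorem finiteDimensional_algIncl
    (hfin : @Module.finrank ↥(modularFunctionFieldFullC k N)
      ↥(modularFunctionFieldFullC k (N * ℓ)) _ _ (algIncl k N ℓ).toModule = ℓ + 1) :
    @FiniteDimensional ↥(modularFunctionFieldFullC k N)
      ↥(modularFunctionFieldFullC k (N * ℓ)) _ _ (algIncl k N ℓ).toModule := by
  letI := algIncl k N ℓ
  exact Module.finite_of_finrank_pos (by rw [hfin]; omega)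

/-- `F' / F` is separable (in every characteristic). -/
theorem isSeparable_algIncl {Φ : Polynomial (Polynomial ℤ)} (hℓ : ℓ.Prime) (hℓN : ¬ ℓ ∣ N)
    (H : HasModPolys k (N * ℓ)) (hΦ : IsModPoly ℓ Φ) (ζ : kˣ) (hζ : IsPrimitiveRoot ζ ℓ)
    (hfin : @Module.finrank ↥(modularFunctionFieldFullC k N)
      ↥(modularFunctionFieldFullC k (N * ℓ)) _ _ (algIncl k N ℓ).toModule = ℓ + 1) :
    @Algebra.IsSeparable ↥(modularFunctionFieldFullC k N)
      ↥(modularFunctionFieldFullC k (N * ℓ)) _ _ (algIncl k N ℓ) := by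
  letI := algIncl k N ℓ
  haveI := finiteDimensional_algIncl hfin
  exact isSeparable_of_embeddings (baseHom k N ℓ) hfin
    (embFamily hℓ hℓN H hΦ (natDegree_minpoly_jdl hℓ hℓN H hΦ hfin) ζ)
    (fun i a => embFamily_algebraMap hℓ hℓN H hΦ _ ζ hζ.pow_eq_one i a)
    (embFamily_injective hℓ hℓN H hΦ _ ζ hζ)

/-- **Norm formula, general element**, every characteristic. -/
theorem norm_eq_swap_of_char {Φ : Polynomial (Polynomial ℤ)} (hℓ : ℓ.Prime) (hℓN : ¬ ℓ ∣ N)
    (H : HasModPolys k (N * ℓ)) (hΦ : IsModPoly ℓ Φ) (ζ : kˣ) (hζ : IsPrimitiveRoot ζ ℓ)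
    (hfin : @Module.finrank ↥(modularFunctionFieldFullC k N)
      ↥(modularFunctionFieldFullC k (N * ℓ)) _ _ (algIncl k N ℓ).toModule = ℓ + 1)
    (x : modularFunctionFieldFullC k (N * ℓ)) :
    qExpand k ℓ ((@Algebra.norm ↥(modularFunctionFieldFullC k N) _ _ _ (algIncl k N ℓ) x :
        modularFunctionFieldFullC k N) : LaurentSeries k)
      = qExpand k ℓ (x : LaurentSeries k) *
          ∏ b ∈ Finset.range ℓ, twist (ζ ^ b)
            (swapHom hℓ hℓN H hΦ (natDegree_minpoly_jdl hℓ hℓN H hΦ hfin) x) := by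
  letI := algIncl k N ℓ
  haveI := finiteDimensional_algIncl hfin
  haveI := isSeparable_algIncl hℓ hℓN H hΦ ζ hζ hfin
  have key := norm_eq_prod_of_embeddings (baseHom k N ℓ) hfin
    (embFamily hℓ hℓN H hΦ (natDegree_minpoly_jdl hℓ hℓN H hΦ hfin) ζ)
    (fun i a => embFamily_algebraMap hℓ hℓN H hΦ _ ζ hζ.pow_eq_one i a)
    (embFamily_injective hℓ hℓN H hΦ _ ζ hζ) x
  rw [baseHom_apply] at key
  rw [key, Fin.prod_univ_castSucc, embFamily_last, mul_comm]
  congr 1
  simp_rw [embFamily_castSucc]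
  exact Fin.prod_univ_eq_prod_range
    (fun b => twist (ζ ^ b) (swapHom hℓ hℓN H hΦ (natDegree_minpoly_jdl hℓ hℓN H hΦ hfin) x)) ℓ

/-- **NORM-ID**, every characteristic. -/
theorem norm_betaHom_of_char (hℓ : ℓ.Prime) (hℓN : ¬ ℓ ∣ N)
    (H : HasModPolys k (N * ℓ)) (ζ : kˣ) (hζ : IsPrimitiveRoot ζ ℓ)
    (hfin : @Module.finrank ↥(modularFunctionFieldFullC k N)
      ↥(modularFunctionFieldFullC k (N * ℓ)) _ _ (algIncl k N ℓ).toModule = ℓ + 1)
    (y : modularFunctionFieldFullC k N) :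
    qExpand k ℓ ((@Algebra.norm ↥(modularFunctionFieldFullC k N) _ _ _ (algIncl k N ℓ)
        (betaHom k N ℓ y) : modularFunctionFieldFullC k N) : LaurentSeries k)
      = qExpand k (ℓ * ℓ) (y : LaurentSeries k) *
          ∏ b ∈ Finset.range ℓ, twist (ζ ^ b) (y : LaurentSeries k) := by
  obtain ⟨-, Φ, hΦ⟩ := H ℓ hℓ (Dvd.intro_left N rfl)
  rw [norm_eq_swap_of_char hℓ hℓN H hΦ ζ hζ hfin, coe_betaHom, qExpand_qExpand]
  simp_rw [swapHom_betaHom]

/-- **NORM-ID (closed form)**, every characteristic: `N_{F'/F}(y(q^ℓ)) = kronNorm ℓ y`. -/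
theorem norm_betaHom_eq_kronNorm_of_char (hℓ : ℓ.Prime) (hℓN : ¬ ℓ ∣ N)
    (hchar : ∀ r : ℕ, r.Prime → r ∣ N * ℓ → (r : k) ≠ 0)
    (ζ : kˣ) (hζ : IsPrimitiveRoot ζ ℓ) (y : modularFunctionFieldFullC k N) :
    ((@Algebra.norm ↥(modularFunctionFieldFullC k N) _ _ _ (algIncl k N ℓ)
        (betaHom k N ℓ y) : modularFunctionFieldFullC k N) : LaurentSeries k)
      = Fermat.Agent.S37.H400.kronNorm ℓ (y : LaurentSeries k) := by
  apply qExpand_injective (R := k) ℓ
  rw [norm_betaHom_of_char hℓ hℓN (hasModPolys_of_char k (N * ℓ) hchar) ζ hζ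
    (finrank_algIncl_of_char k N ℓ hℓ hℓN hchar), Fermat.Agent.S37.H400.kronNorm, map_mul,
    qExpand_qExpand, qExpand_det_secMat ζ hζ]

end Norm

end Fermat.Agent.Ribet.H223.HF
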