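import Mathlib
import Fermat.Prelude.Def_AlgebraicCurve_Correspondence
import Fermat.Agent.Ribet.H223.HeckeFunNorm
import Fermat.Agent.S37.H160.SepFF
import Fermat.Agent.S18.H383.FF1Modular
import Fermat.Agent.S24.FFFinite
import Fermat.Agent.S24.FFBasic

/-!
# Row 38, WALL-p, leaf HECKE-FUN (helper223), part 2: the characteristic-`p` core

`k` an algebraically closed field (ANY characteristic), `ℓ ∤ N` a prime, the primes dividing
`N ℓ` invertible in `k`, `F = k(j(q^d) : d ∣ N) ⊆ F' = k(j(q^d) : d ∣ N ℓ)`.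

* `dvd_ord_norm_of_stable` (general function fields): for two embeddings `α β : F → F'`, `α`
  finite separable, and a set `P` of places of `F` with `P (w|α) → P (w|β)`: if `n ∣ ord_Q h` on
  `P` then `n ∣ ord_Q (N_α (β h))` on `P`;
* `alphaC`, `betaC` : the two degeneracy maps as `k`-algebra maps;
* `exists_kronNorm_dvd_ord` : `n ∣ ord_Q h` for ALL places `Q` ⇒ `kronNorm ℓ h` is (the series
  of) a nonzero element of `F` with the same property;
* `exists_kronNorm_dvd_ord_of_nonneg` : the same for the NON-CUSPIDAL places (`0 ≤ ord_Q j`);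
* `exists_kronNorm_dvd_ord_of_neg` : the same for the CUSPIDAL places (`ord_Q j < 0`).
-/

set_option autoImplicit false
set_option linter.unusedSectionVars false
set_option linter.style.haveILetI false

noncomputable section

open AlgebraicCurve ModularCurve HahnSeries Polynomial IntermediateField
open Fermat.Agent.S28.H626 Fermat.Agent.S37.H157

namespace Fermat.Agent.Ribet.H223.HF

section General

variable {K F F' : Type*} [Field K] [Field F] [Field F'] [Algebra K F] [Algebra K F']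

/-- A `K`-embedding of function fields of one variable is finite (every characteristic; the
proof is helper398's `Lib.FF398.finiteAlong_of_functionField`). -/
theorem finiteAlong_of_ff (φ : F →ₐ[K] F') (j : F) (hj : Transcendental K j)
    (j' : F') (hj' : Transcendental K j') [FiniteDimensional K⟮j'⟯ F'] :
    FiniteAlong K φ := by
  letI := algebraAlong φ
  show Module.Finite F F'
  have hy : Transcendental K (φ j) := by
    intro h
    exact hj ((isAlgebraic_algHom_iff φ φ.injective).mp h)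
  haveI : FiniteDimensional K⟮φ j⟯ F' :=
    Fermat.Agent.S24.FF.finiteDimensional_adjoin_of_transcendental hj' hy
  obtain ⟨S, hS⟩ := (Module.finite_def (R := K⟮φ j⟯) (M := F')).mp inferInstance
  refine Module.finite_def.mpr ⟨S, ?_⟩
  have hle : K⟮φ j⟯ ≤ φ.fieldRange := by
    rw [adjoin_le_iff]
    rintro _ rfl
    exact ⟨j, rfl⟩
  have key : ∀ x : F', x ∈ Submodule.span K⟮φ j⟯ (S : Set F') →
      x ∈ Submodule.span F (S : Set F') := by
    intro x hx
    induction hx using Submodule.span_induction with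
    | mem x hx => exact Submodule.subset_span hx
    | zero => exact zero_mem _
    | add x y _ _ hx hy => exact add_mem hx hy
    | smul e x _ hx =>
      obtain ⟨f, hf⟩ := hle e.2
      have : e • x = f • x := by
        rw [Algebra.smul_def, Algebra.smul_def]
        show (e : F') * x = φ f * x
        rw [← hf]
        rfl
      rw [this]
      exact Submodule.smul_mem _ _ hx
  rw [eq_top_iff]
  intro x _
  exact key x (by rw [hS]; trivial)

/-- A finite embedding is integral. -/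
theorem isIntegral_of_finiteAlong (φ : F →ₐ[K] F') (h : FiniteAlong K φ) :
    φ.toRingHom.IsIntegral := by
  letI := algebraAlong φ
  haveI : Module.Finite F F' := h
  exact fun x => Algebra.IsIntegral.isIntegral (R := F) x

/-- **Divisibility of the orders of a Hecke norm.**  `α β : F → F'` two embeddings of function
fields, `α` finite separable, all places of `F'` of degree one; `P` a set of places of `F`
stable under the correspondence.  If `n ∣ ord_Q h` for all `Q ∈ P` then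
`n ∣ ord_Q (N_α (β h))` for all `Q ∈ P`. -/
theorem dvd_ord_norm_of_stable (α β : F →ₐ[K] F') (hα : FiniteAlong K α)
    (hsep : @Algebra.IsSeparable F F' _ _ (algebraAlong α))
    (hαi : α.toRingHom.IsIntegral) (hβi : β.toRingHom.IsIntegral)
    (hdeg' : ∀ w : Place K F', w.deg = 1)
    (P : Place K F → Prop)
    (hP : ∀ w : Place K F', P (w.restrictAlong α hαi) → P (w.restrictAlong β hβi))
    (n : ℤ) (h : F) (hh : h ≠ 0) (hdiv : ∀ Q : Place K F, P Q → n ∣ Q.ord h)
    (Q : Place K F) (hQ : P Q) :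
    n ∣ Q.ord (@Algebra.norm F F' _ _ (algebraAlong α) (β h)) := by
  letI := algebraAlong α
  haveI := isScalarTower_along α
  haveI : Module.Finite F F' := hα
  haveI : Algebra.IsSeparable F F' := hsep
  have hfin := Fermat.Agent.S37.H160.SepFF.finite_fibre (F' := F') Q
  have hg : β h ≠ 0 := (map_ne_zero β).mpr hh
  rw [← Fermat.Agent.S37.H160.SepFF.sum_ord_eq_ord_norm Q hdeg' hfin.toFinset
    (fun w => by simp) (β h) hg]
  refine Finset.dvd_sum fun w hw => ?_
  have hw' : w.restrict F = Q := by simpa using hw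
  rw [Place.ord_restrictAlong β hβi w h]
  refine Dvd.dvd.mul_left (hdiv _ (hP w ?_)) _
  have : w.restrictAlong α hαi = Q := hw'
  rw [this]
  exact hQ

/-- A root of a monic two-variable integral polynomial `Φ(y, X)` with `y` in a valuation subring
lies in the valuation subring. -/
theorem mem_valuationSubring_of_ev2 {L : Type*} [Field L] (A : ValuationSubring L)
    {Φ : Polynomial (Polynomial ℤ)} (hΦ : Φ.Monic) {y x : L} (hy : y ∈ A)
    (h : ev2 Φ y x = 0) : x ∈ A := by
  have hint : IsIntegral A x := by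
    refine ⟨spec Φ (⟨y, hy⟩ : A), spec_monic hΦ _, ?_⟩
    rw [← Polynomial.eval_map, map_spec]
    show (spec Φ y).eval x = 0
    rw [eval_spec, h]
  obtain ⟨z, hz⟩ := IsIntegrallyClosed.isIntegral_iff.mp hint
  rw [← hz]
  exact z.2

/-- `0 ≤ ord_{w|φ} f ↔ 0 ≤ ord_w (φ f)`. -/
theorem ord_restrictAlong_nonneg_iff (φ : F →ₐ[K] F') (hφ : φ.toRingHom.IsIntegral)
    (w : Place K F') (f : F) :
    0 ≤ (w.restrictAlong φ hφ).ord f ↔ 0 ≤ w.ord (φ f) := by
  rw [← Fermat.Agent.S24.FF.mem_iff_ord_nonneg, ← Fermat.Agent.S24.FF.mem_iff_ord_nonneg]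
  exact Iff.rfl

end General

section Modular

variable (k : Type*) [Field k] (N ℓ : ℕ) [NeZero N] [NeZero ℓ]

/-- The degeneracy map `α : F → F'` (inclusion) as a `k`-algebra map. -/
def alphaC : ↥(modularFunctionFieldFullC k N) →ₐ[k] ↥(modularFunctionFieldFullC k (N * ℓ)) :=
  IntermediateField.inclusion (full_le_full_mul k N ℓ)

@[simp] theorem coe_alphaC (x : modularFunctionFieldFullC k N) :
    ((alphaC k N ℓ x : modularFunctionFieldFullC k (N * ℓ)) : LaurentSeries k)
      = (x : LaurentSeries k) :=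
  IntermediateField.coe_inclusion _ x

/-- The degeneracy map `β : F → F'`, `y ↦ y(q^ℓ)`, as a `k`-algebra map. -/
def betaC : ↥(modularFunctionFieldFullC k N) →ₐ[k] ↥(modularFunctionFieldFullC k (N * ℓ)) :=
  { betaHom k N ℓ with
    commutes' := fun a => Subtype.ext ((qExpandAlgHomC k ℓ).commutes a) }

@[simp] theorem coe_betaC (x : modularFunctionFieldFullC k N) :
    ((betaC k N ℓ x : modularFunctionFieldFullC k (N * ℓ)) : LaurentSeries k)
      = qExpand k ℓ (x : LaurentSeries k) := rfl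

theorem betaC_apply (x : modularFunctionFieldFullC k N) :
    betaC k N ℓ x = betaHom k N ℓ x := rfl

theorem algebraAlong_alphaC : algebraAlong (alphaC k N ℓ) = algIncl k N ℓ := rfl

variable {k N ℓ}

theorem finiteAlong_alphaC (hchar : ∀ r : ℕ, r.Prime → r ∣ N * ℓ → (r : k) ≠ 0) :
    FiniteAlong k (alphaC k N ℓ) := by
  haveI := Fermat.Agent.S18.H739.finiteDimensional_adjoin_jC k (N * ℓ) hchar
  exact finiteAlong_of_ff _ _ (Fermat.Agent.S18.H739.transcendental_jC k N) _
    (Fermat.Agent.S18.H739.transcendental_jC k (N * ℓ))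

theorem finiteAlong_betaC (hchar : ∀ r : ℕ, r.Prime → r ∣ N * ℓ → (r : k) ≠ 0) :
    FiniteAlong k (betaC k N ℓ) := by
  haveI := Fermat.Agent.S18.H739.finiteDimensional_adjoin_jC k (N * ℓ) hchar
  exact finiteAlong_of_ff _ _ (Fermat.Agent.S18.H739.transcendental_jC k N) _
    (Fermat.Agent.S18.H739.transcendental_jC k (N * ℓ))

theorem isIntegral_alphaC (hchar : ∀ r : ℕ, r.Prime → r ∣ N * ℓ → (r : k) ≠ 0) :
    (alphaC k N ℓ).toRingHom.IsIntegral :=
  isIntegral_of_finiteAlong _ (finiteAlong_alphaC hchar)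

theorem isIntegral_betaC (hchar : ∀ r : ℕ, r.Prime → r ∣ N * ℓ → (r : k) ≠ 0) :
    (betaC k N ℓ).toRingHom.IsIntegral :=
  isIntegral_of_finiteAlong _ (finiteAlong_betaC hchar)

/-- `Φ_ℓ(j, j(q^ℓ)) = 0` inside `F'`. -/
theorem ev2_alphaC_betaC {Φ : Polynomial (Polynomial ℤ)} (hΦ : IsModPoly ℓ Φ) :
    ev2 Φ (alphaC k N ℓ (jIn k N)) (betaC k N ℓ (jIn k N)) = 0 := by
  apply (algebraMap ↥(modularFunctionFieldFullC k (N * ℓ)) (LaurentSeries k)).injective
  rw [map_ev2, map_zero]
  show ev2 Φ (jqModC k) (jd k ℓ) = 0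
  have := ev2_jd_up (k := k) hΦ 1
  rwa [jd_one, jd_congr k (one_mul ℓ)] at this

/-- `Φ_ℓ(j(q^ℓ), j) = 0` inside `F'`. -/
theorem ev2_betaC_alphaC {Φ : Polynomial (Polynomial ℤ)} (hΦ : IsModPoly ℓ Φ) :
    ev2 Φ (betaC k N ℓ (jIn k N)) (alphaC k N ℓ (jIn k N)) = 0 := by
  apply (algebraMap ↥(modularFunctionFieldFullC k (N * ℓ)) (LaurentSeries k)).injective
  rw [map_ev2, map_zero]
  show ev2 Φ (jd k ℓ) (jqModC k) = 0
  have := ev2_jd_down (k := k) hΦ 1
  rwa [jd_one, jd_congr k (one_mul ℓ)] at this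

/-- **The Hecke correspondence preserves the non-cuspidal locus**: at a place `w` of `F'`,
`j` is integral at `w|α` iff it is integral at `w|β`. -/
theorem ord_j_nonneg_alpha_iff_beta (hℓ : ℓ.Prime)
    (hchar : ∀ r : ℕ, r.Prime → r ∣ N * ℓ → (r : k) ≠ 0)
    (w : Place k (modularFunctionFieldFullC k (N * ℓ))) :
    0 ≤ (w.restrictAlong (alphaC k N ℓ) (isIntegral_alphaC hchar)).ord (jIn k N)
      ↔ 0 ≤ (w.restrictAlong (betaC k N ℓ) (isIntegral_betaC hchar)).ord (jIn k N) := by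
  obtain ⟨-, Φ, hΦ⟩ := hasModPolys_of_char k (N * ℓ) hchar ℓ hℓ (Dvd.intro_left N rfl)
  rw [ord_restrictAlong_nonneg_iff, ord_restrictAlong_nonneg_iff,
    ← Fermat.Agent.S24.FF.mem_iff_ord_nonneg, ← Fermat.Agent.S24.FF.mem_iff_ord_nonneg]
  exact ⟨fun h => mem_valuationSubring_of_ev2 _ hΦ.monic h (ev2_alphaC_betaC hΦ),
    fun h => mem_valuationSubring_of_ev2 _ hΦ.monic h (ev2_betaC_alphaC hΦ)⟩

/-- **HECKE-FUN, characteristic-free core (general stable set of places).** -/
theorem exists_kronNorm_dvd_ord_of_stable [IsAlgClosed k] (hℓ : ℓ.Prime) (hℓN : ¬ ℓ ∣ N)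
    (hchar : ∀ r : ℕ, r.Prime → r ∣ N * ℓ → (r : k) ≠ 0)
    (P : Place k (modularFunctionFieldFullC k N) → Prop)
    (hP : ∀ w : Place k (modularFunctionFieldFullC k (N * ℓ)),
      P (w.restrictAlong (alphaC k N ℓ) (isIntegral_alphaC hchar)) →
        P (w.restrictAlong (betaC k N ℓ) (isIntegral_betaC hchar)))
    (n : ℤ) (h : modularFunctionFieldFullC k N) (hh : h ≠ 0)
    (hdiv : ∀ Q : Place k (modularFunctionFieldFullC k N), P Q → n ∣ Q.ord h) :
    ∃ h' : modularFunctionFieldFullC k N,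
      (h' : LaurentSeries k) = Fermat.Agent.S37.H400.kronNorm ℓ (h : LaurentSeries k) ∧
      h' ≠ 0 ∧ ∀ Q : Place k (modularFunctionFieldFullC k N), P Q → n ∣ Q.ord h' := by
  have hℓk : (ℓ : k) ≠ 0 := hchar ℓ hℓ (Dvd.intro_left N rfl)
  haveI : NeZero (ℓ : k) := ⟨hℓk⟩
  obtain ⟨ζ₀, hζ₀⟩ := HasEnoughRootsOfUnity.exists_primitiveRoot k ℓ
  obtain ⟨ζ, rfl⟩ : ∃ ζ : kˣ, (ζ : k) = ζ₀ := ⟨(hζ₀.isUnit (NeZero.ne ℓ)).unit, rfl⟩
  have hζ : IsPrimitiveRoot ζ ℓ := IsPrimitiveRoot.coe_units_iff.mp hζ₀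
  have hfin := finrank_algIncl_of_char k N ℓ hℓ hℓN hchar
  have hsep : @Algebra.IsSeparable _ _ _ _ (algebraAlong (alphaC k N ℓ)) := by
    obtain ⟨-, Φ, hΦ⟩ := hasModPolys_of_char k (N * ℓ) hchar ℓ hℓ (Dvd.intro_left N rfl)
    exact isSeparable_algIncl hℓ hℓN (hasModPolys_of_char k (N * ℓ) hchar) hΦ ζ hζ hfin
  have hdeg' : ∀ w : Place k (modularFunctionFieldFullC k (N * ℓ)), w.deg = 1 :=
    Fermat.Agent.S18.H383.deg_eq_one_fullC k (N * ℓ) hchar
  refine ⟨@Algebra.norm _ _ _ _ (algebraAlong (alphaC k N ℓ)) (betaC k N ℓ h), ?_, ?_, ?_⟩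
  · exact norm_betaHom_eq_kronNorm_of_char hℓ hℓN hchar ζ hζ h
  · letI := algebraAlong (alphaC k N ℓ)
    haveI : Module.Finite ↥(modularFunctionFieldFullC k N)
      ↥(modularFunctionFieldFullC k (N * ℓ)) := finiteAlong_alphaC hchar
    haveI : Module.Free ↥(modularFunctionFieldFullC k N)
      ↥(modularFunctionFieldFullC k (N * ℓ)) := Module.Free.of_divisionRing _ _
    rw [Algebra.norm_ne_zero_iff]
    exact (map_ne_zero (betaC k N ℓ)).mpr hh
  · exact dvd_ord_norm_of_stable (alphaC k N ℓ) (betaC k N ℓ) (finiteAlong_alphaC hchar) hsep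
      (isIntegral_alphaC hchar) (isIntegral_betaC hchar) hdeg' P hP n h hh hdiv

/-- **HECKE-FUN core, all places**: if `n ∣ ord_Q h` at every place `Q` then `kronNorm ℓ h` is
a nonzero element of `F` with the same property. -/
theorem exists_kronNorm_dvd_ord [IsAlgClosed k] (hℓ : ℓ.Prime) (hℓN : ¬ ℓ ∣ N)
    (hchar : ∀ r : ℕ, r.Prime → r ∣ N * ℓ → (r : k) ≠ 0)
    (n : ℤ) (h : modularFunctionFieldFullC k N) (hh : h ≠ 0)
    (hdiv : ∀ Q : Place k (modularFunctionFieldFullC k N), n ∣ Q.ord h) :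
    ∃ h' : modularFunctionFieldFullC k N,
      (h' : LaurentSeries k) = Fermat.Agent.S37.H400.kronNorm ℓ (h : LaurentSeries k) ∧
      h' ≠ 0 ∧ ∀ Q : Place k (modularFunctionFieldFullC k N), n ∣ Q.ord h' := by
  obtain ⟨h', h1, h2, h3⟩ := exists_kronNorm_dvd_ord_of_stable hℓ hℓN hchar (fun _ => True)
    (fun _ _ => trivial) n h hh (fun Q _ => hdiv Q)
  exact ⟨h', h1, h2, fun Q => h3 Q trivial⟩

/-- **HECKE-FUN core, non-cuspidal places**: if `n ∣ ord_Q h` at every place `Q` with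
`0 ≤ ord_Q j` then `kronNorm ℓ h` is a nonzero element of `F` with the same property. -/
theorem exists_kronNorm_dvd_ord_of_nonneg [IsAlgClosed k] (hℓ : ℓ.Prime) (hℓN : ¬ ℓ ∣ N)
    (hchar : ∀ r : ℕ, r.Prime → r ∣ N * ℓ → (r : k) ≠ 0)
    (n : ℤ) (h : modularFunctionFieldFullC k N) (hh : h ≠ 0)
    (hdiv : ∀ Q : Place k (modularFunctionFieldFullC k N),
      0 ≤ Q.ord (jIn k N) → n ∣ Q.ord h) :
    ∃ h' : modularFunctionFieldFullC k N,
      (h' : LaurentSeries k) = Fermat.Agent.S37.H400.kronNorm ℓ (h : LaurentSeries k) ∧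
      h' ≠ 0 ∧ ∀ Q : Place k (modularFunctionFieldFullC k N),
        0 ≤ Q.ord (jIn k N) → n ∣ Q.ord h' :=
  exists_kronNorm_dvd_ord_of_stable hℓ hℓN hchar (fun Q => 0 ≤ Q.ord (jIn k N))
    (fun w => (ord_j_nonneg_alpha_iff_beta hℓ hchar w).mp) n h hh hdiv

/-- **HECKE-FUN core, cuspidal places**: if `n ∣ ord_Q h` at every place `Q` with
`ord_Q j < 0` then `kronNorm ℓ h` is a nonzero element of `F` with the same property. -/
theorem exists_kronNorm_dvd_ord_of_neg [IsAlgClosed k] (hℓ : ℓ.Prime) (hℓN : ¬ ℓ ∣ N)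
    (hchar : ∀ r : ℕ, r.Prime → r ∣ N * ℓ → (r : k) ≠ 0)
    (n : ℤ) (h : modularFunctionFieldFullC k N) (hh : h ≠ 0)
    (hdiv : ∀ Q : Place k (modularFunctionFieldFullC k N),
      Q.ord (jIn k N) < 0 → n ∣ Q.ord h) :
    ∃ h' : modularFunctionFieldFullC k N,
      (h' : LaurentSeries k) = Fermat.Agent.S37.H400.kronNorm ℓ (h : LaurentSeries k) ∧
      h' ≠ 0 ∧ ∀ Q : Place k (modularFunctionFieldFullC k N),
        Q.ord (jIn k N) < 0 → n ∣ Q.ord h' :=
  exists_kronNorm_dvd_ord_of_stable hℓ hℓN hchar (fun Q => Q.ord (jIn k N) < 0)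
    (fun w hw => not_le.mp fun h0 =>
      not_le.mpr hw ((ord_j_nonneg_alpha_iff_beta hℓ hchar w).mpr h0)) n h hh hdiv

end Modular

end Fermat.Agent.Ribet.H223.HF
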