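import Fermat.Agent.Ribet.H223.HeckeFunCore
import Fermat.Agent.Ribet.H884.SlopeSpec
import Fermat.Agent.S37.H697.KronDet

/-!
# Row 38, WALL-p, leaf HECKE-FUN (helper223), part 3: adapters to the frozen vocabulary

* `kronNorm_eq_knorm` : the two formal Kronecker norms on main (`S37.H400.kronNorm`,
  `S37.H697.knorm`) agree;
* `hchar_of_charP` : in characteristic `p`, the primes dividing `M' ℓ` are invertible
  (`p ∤ M'`, `ℓ ≠ p`);
* `pDivSeries_knorm` : `H884.PDivSeries p M' r → H884.PDivSeries p M' (knorm ℓ r)`;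
* `exists_knorm_dvd_ord_of_nonneg`, `exists_knorm_dvd_ord_of_neg` : the non-cuspidal / cuspidal
  variants, in characteristic `p`.
-/

set_option autoImplicit false
set_option linter.unusedSectionVars false
set_option linter.style.haveILetI false

noncomputable section

open AlgebraicCurve ModularCurve HahnSeries
open Fermat.Agent.S37.H157

namespace Fermat.Agent.Ribet.H223.HF

/-- The two formal Kronecker norms agree. -/
theorem kronNorm_eq_knorm {K : Type*} [Field K] (ℓ : ℕ) [NeZero ℓ] (f : LaurentSeries K) :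
    Fermat.Agent.S37.H400.kronNorm ℓ f = Fermat.Agent.S37.H697.knorm ℓ f := by
  rw [Fermat.Agent.S37.H400.kronNorm, Fermat.Agent.S37.H697.knorm, Fermat.Agent.S37.H697.kdet,
    kronMat_eq_secMat]

/-- In characteristic `p`, the primes dividing `M' ℓ` are invertible. -/
theorem hchar_of_charP (k : Type*) [Field k] (p : ℕ) [CharP k p] (hp : p.Prime) {M' ℓ : ℕ}
    (hℓ : ℓ.Prime) (hℓp : ℓ ≠ p) (hpM : ¬ p ∣ M') :
    ∀ r : ℕ, r.Prime → r ∣ M' * ℓ → (r : k) ≠ 0 := by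
  intro r hr hrd h0
  have hpr : p ∣ r := (CharP.cast_eq_zero_iff k p r).mp h0
  have hpr' : p = r := (Nat.prime_dvd_prime_iff_eq hp hr).mp hpr
  subst hpr'
  rcases (Nat.Prime.dvd_mul hp).mp hrd with h | h
  · exact hpM h
  · exact hℓp ((Nat.prime_dvd_prime_iff_eq hp hℓ).mp h).symm

section CharP

variable {k : Type} [Field k] [IsAlgClosed k] (p : ℕ) [CharP k p] (M' ℓ : ℕ) [NeZero M']
  [NeZero ℓ]

/-- **HECKE-FUN (all places)**: `PDivSeries` is stable under the formal Kronecker norm. -/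
theorem pDivSeries_knorm (hp : p.Prime) (hℓ : ℓ.Prime) (hℓp : ℓ ≠ p) (hℓM : ¬ ℓ ∣ M')
    (hpM : ¬ p ∣ M') {r : LaurentSeries k} (h : Fermat.Agent.Ribet.H884.PDivSeries p M' r) :
    Fermat.Agent.Ribet.H884.PDivSeries p M' (Fermat.Agent.S37.H697.knorm ℓ r) := by
  obtain ⟨h₀, rfl, hh0, hdiv⟩ := h
  obtain ⟨h', h1, h2, h3⟩ := exists_kronNorm_dvd_ord hℓ hℓM
    (hchar_of_charP k p hp hℓ hℓp hpM) (p : ℤ) h₀ hh0 hdiv
  exact ⟨h', by rw [h1, kronNorm_eq_knorm], h2, h3⟩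

/-- **HECKE-FUN (non-cuspidal places)** in characteristic `p`. -/
theorem exists_knorm_dvd_ord_of_nonneg (hp : p.Prime) (hℓ : ℓ.Prime) (hℓp : ℓ ≠ p)
    (hℓM : ¬ ℓ ∣ M') (hpM : ¬ p ∣ M') (h : modularFunctionFieldFullC k M') (hh : h ≠ 0)
    (hdiv : ∀ Q : Place k (modularFunctionFieldFullC k M'),
      0 ≤ Q.ord (jIn k M') → (p : ℤ) ∣ Q.ord h) :
    ∃ h' : modularFunctionFieldFullC k M',
      (h' : LaurentSeries k) = Fermat.Agent.S37.H697.knorm ℓ (h : LaurentSeries k) ∧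
      h' ≠ 0 ∧ ∀ Q : Place k (modularFunctionFieldFullC k M'),
        0 ≤ Q.ord (jIn k M') → (p : ℤ) ∣ Q.ord h' := by
  obtain ⟨h', h1, h2, h3⟩ := exists_kronNorm_dvd_ord_of_nonneg hℓ hℓM
    (hchar_of_charP k p hp hℓ hℓp hpM) (p : ℤ) h hh hdiv
  exact ⟨h', by rw [h1, kronNorm_eq_knorm], h2, h3⟩

/-- **HECKE-FUN (cuspidal places)** in characteristic `p`. -/
theorem exists_knorm_dvd_ord_of_neg (hp : p.Prime) (hℓ : ℓ.Prime) (hℓp : ℓ ≠ p)
    (hℓM : ¬ ℓ ∣ M') (hpM : ¬ p ∣ M') (h : modularFunctionFieldFullC k M') (hh : h ≠ 0)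
    (hdiv : ∀ Q : Place k (modularFunctionFieldFullC k M'),
      Q.ord (jIn k M') < 0 → (p : ℤ) ∣ Q.ord h) :
    ∃ h' : modularFunctionFieldFullC k M',
      (h' : LaurentSeries k) = Fermat.Agent.S37.H697.knorm ℓ (h : LaurentSeries k) ∧
      h' ≠ 0 ∧ ∀ Q : Place k (modularFunctionFieldFullC k M'),
        Q.ord (jIn k M') < 0 → (p : ℤ) ∣ Q.ord h' := by
  obtain ⟨h', h1, h2, h3⟩ := exists_kronNorm_dvd_ord_of_neg hℓ hℓM
    (hchar_of_charP k p hp hℓ hℓp hpM) (p : ℤ) h hh hdiv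
  exact ⟨h', by rw [h1, kronNorm_eq_knorm], h2, h3⟩

end CharP

end Fermat.Agent.Ribet.H223.HF
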