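import Fermat.Agent.A2.H708.GaussInf
import Fermat.Prelude.Def_ModularCurve_HeckeOperator

/-!
# Row 38, WALL-p, leaf M6a (helper223): the Gauss valuation at `∞` is compatible with the
degeneracy maps `α_ℓ` (inclusion) and `β_ℓ` (`t ↦ t^ℓ`), for EVERY `ℓ` and EVERY level

Vocabulary of `A2/H708/GaussInf.lean` (the one used by `A2/Mod/Spec.lean`, `IsVinf`):
`L ⊇ ℚ` a field, `A` ANY valuation subring of `L` (so `R_E ⊆ E` and `A ⊆ ℚ̄` are both covered),
`F₀ ⊆ ℚ((t))`, `IsGaussInt A F₀ f` = "`f = U₁ / U₂`, `U₂` primitive, `U₂ ∈ L·F₀`".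

* `isGaussInt_iff_of_le`     : for `F₀ ≤ F₁` and `f ∈ L·F₀`:
                               `IsGaussInt A F₁ f ↔ IsGaussInt A F₀ f`            (`α`);
* `isGaussInt_qExpand_iff`   : if `t ↦ t^n` maps `F₀` into `F₁` and `f ∈ L·F₀`:
                               `IsGaussInt A F₁ (f(t^n)) ↔ IsGaussInt A F₀ f`     (`β`);
* `IsRedOf A F₀ f r`         : "`r ∈ k((t))` is the reduction of the Gauss-integral `f`"
                               (a relation; `IsRedOf.unique`, `IsRedOf.exists_of_isGaussInt`);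
* `IsRedOf.of_le`, `IsRedOf.qExpand` : `red (α f) = red f`, `red (β f) = (red f)(t^n)`;
* modular instances `isGaussInt_heckeAlphaBar_iff`, `isGaussInt_heckeBetaBar_iff`,
  `isRedOf_heckeAlphaBar`, `isRedOf_heckeBetaBar` for `heckeAlphaBar L N ℓ`, `heckeBetaBar L N ℓ`.
-/

set_option autoImplicit false

noncomputable section

namespace Fermat.Agent.Ribet.H223.M6a

open ModularCurve HahnSeries IntermediateField
open Fermat.Agent.A2.H708

/-! ## Coefficient maps and `t ↦ t^n` -/

section QExpand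

theorem coeffMap_qExpand_h223 {R S : Type*} [CommRing R] [CommRing S] (f : R →+* S) (n : ℕ)
    [NeZero n] (x : LaurentSeries R) : coeffMap f (qExpand R n x) = qExpand S n (coeffMap f x) := by
  ext k
  by_cases hk : (n : ℤ) ∣ k
  · obtain ⟨m, rfl⟩ := hk
    rw [coeffMap_coeff, qExpand_coeff_mul, qExpand_coeff_mul, coeffMap_coeff]
  · rw [coeffMap_coeff, qExpand_coeff_of_not_dvd n _ hk, qExpand_coeff_of_not_dvd n _ hk,
      map_zero]

variable {L : Type*} [Field L] (A : ValuationSubring L)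

theorem incl_qExpand (n : ℕ) [NeZero n] (U : LaurentSeries A) :
    incl A (qExpand A n U) = qExpand L n (incl A U) :=
  coeffMap_qExpand_h223 _ n U

theorem red_qExpand (n : ℕ) [NeZero n] (U : LaurentSeries A) :
    red A (qExpand A n U) = qExpand (IsLocalRing.ResidueField A) n (red A U) :=
  coeffMap_qExpand_h223 _ n U

theorem red_qExpand_ne_zero (n : ℕ) [NeZero n] {U : LaurentSeries A} (hU : red A U ≠ 0) :
    red A (qExpand A n U) ≠ 0 := by
  rw [red_qExpand]
  exact fun h => hU (qExpand_injective n (h.trans (map_zero _).symm))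

theorem qExpand_cst (n : ℕ) [NeZero n] (c : L) : qExpand L n (cst c) = cst c := by
  show qExpand L n (algebraMap L (LaurentSeries L) c) = algebraMap L (LaurentSeries L) c
  rw [algebraMap_laurentSeries_eq_single, qExpand_single, mul_zero]

end QExpand

/-! ## Base change of subfields -/

section BaseChange

variable (L : Type*) [Field L] [Algebra ℚ L]
variable {F₀ F₁ : IntermediateField ℚ (LaurentSeries ℚ)}

theorem laurentBaseChange_mono_h223 (h : F₀ ≤ F₁) :
    laurentBaseChange L F₀ ≤ laurentBaseChange L F₁ := by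
  rw [laurentBaseChange, IntermediateField.adjoin_le_iff]
  rintro _ ⟨y, hy, rfl⟩
  exact coeffEmb_mem_laurentBaseChange L (h hy)

variable {L}

theorem qExpand_mem_laurentBaseChange_h223 (n : ℕ) [NeZero n]
    (hF : ∀ y ∈ F₀, qExpand ℚ n y ∈ F₁) {x : LaurentSeries L}
    (hx : x ∈ laurentBaseChange L F₀) : qExpand L n x ∈ laurentBaseChange L F₁ := by
  rw [mem_laurentBaseChange_iff] at hx
  induction hx using Subfield.closure_induction with
  | mem y hy =>
      rcases hy with ⟨a, rfl⟩ | ⟨z, hz, rfl⟩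
      · rw [algebraMap_laurentSeries_eq_single, qExpand_single, mul_zero,
          ← algebraMap_laurentSeries_eq_single]
        exact (laurentBaseChange L F₁).algebraMap_mem _
      · have : qExpand L n (coeffEmb L z) = coeffEmb L (qExpand ℚ n z) :=
          (coeffMap_qExpand_h223 _ n z).symm
        rw [this]
        exact coeffEmb_mem_laurentBaseChange L (hF z hz)
  | one => simp
  | add x y _ _ hx hy => simpa using add_mem hx hy
  | neg x _ hx => simpa using neg_mem hx
  | inv x _ hx => simpa using inv_mem hx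
  | mul x y _ _ hx hy => simpa using mul_mem hx hy

end BaseChange

/-! ## Gauss integrality -/

section Gauss

variable {L : Type*} [Field L] [Algebra ℚ L] {A : ValuationSubring L}
variable {F₀ F₁ : IntermediateField ℚ (LaurentSeries ℚ)}

/-- Gauss-integral at a lower level implies Gauss-integral at a higher level. -/
theorem isGaussInt_of_le (h : F₀ ≤ F₁) {f : LaurentSeries L} (hf : IsGaussInt A F₀ f) :
    IsGaussInt A F₁ f := by
  obtain ⟨U₁, U₂, hred, hmem, he⟩ := hf
  exact ⟨U₁, U₂, hred, laurentBaseChange_mono_h223 L h hmem, he⟩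

/-- **(M6a, `α`)** for `f` of the lower level, Gauss-integrality does not depend on the level. -/
theorem isGaussInt_iff_of_le (hgen : IntGen F₀) (hmax : AttainsMax A F₀) (h : F₀ ≤ F₁)
    {f : LaurentSeries L} (hf : f ∈ laurentBaseChange L F₀) :
    IsGaussInt A F₁ f ↔ IsGaussInt A F₀ f := by
  by_cases hf0 : f = 0
  · subst hf0
    exact ⟨fun _ => IsGaussInt.zero, fun _ => IsGaussInt.zero⟩
  obtain ⟨c, U₁, U₂, -, h₁, h₂, -, hm₂, he⟩ := exists_normal_form hgen hmax hf hf0
  rw [isGaussInt_iff_of_normal_form h₁ h₂ hm₂ he,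
    isGaussInt_iff_of_normal_form h₁ h₂ (laurentBaseChange_mono_h223 L h hm₂) he]

/-- `t ↦ t^n` preserves Gauss-integrality. -/
theorem isGaussInt_qExpand (n : ℕ) [NeZero n] (hF : ∀ y ∈ F₀, qExpand ℚ n y ∈ F₁)
    {f : LaurentSeries L} (hf : IsGaussInt A F₀ f) : IsGaussInt A F₁ (qExpand L n f) := by
  obtain ⟨U₁, U₂, hred, hmem, he⟩ := hf
  refine ⟨qExpand A n U₁, qExpand A n U₂, red_qExpand_ne_zero A n hred, ?_, ?_⟩
  · rw [incl_qExpand]
    exact qExpand_mem_laurentBaseChange_h223 n hF hmem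
  · rw [incl_qExpand, incl_qExpand, ← map_mul, he]

/-- **(M6a, `β`)** for `f` of the lower level: `f(t^n)` is Gauss-integral iff `f` is. -/
theorem isGaussInt_qExpand_iff (hgen : IntGen F₀) (hmax : AttainsMax A F₀) (n : ℕ) [NeZero n]
    (hF : ∀ y ∈ F₀, qExpand ℚ n y ∈ F₁) {f : LaurentSeries L}
    (hf : f ∈ laurentBaseChange L F₀) :
    IsGaussInt A F₁ (qExpand L n f) ↔ IsGaussInt A F₀ f := by
  by_cases hf0 : f = 0
  · subst hf0
    rw [map_zero]
    exact ⟨fun _ => IsGaussInt.zero, fun _ => IsGaussInt.zero⟩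
  obtain ⟨c, U₁, U₂, -, h₁, h₂, -, hm₂, he⟩ := exists_normal_form hgen hmax hf hf0
  have he' : qExpand L n f * incl A (qExpand A n U₂) = cst c * incl A (qExpand A n U₁) := by
    rw [incl_qExpand, incl_qExpand, ← map_mul, he, map_mul, qExpand_cst]
  have hm₂' : incl A (qExpand A n U₂) ∈ laurentBaseChange L F₁ := by
    rw [incl_qExpand]
    exact qExpand_mem_laurentBaseChange_h223 n hF hm₂
  rw [isGaussInt_iff_of_normal_form h₁ h₂ hm₂ he,
    isGaussInt_iff_of_normal_form (red_qExpand_ne_zero A n h₁) (red_qExpand_ne_zero A n h₂)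
      hm₂' he']

/-! ## Reductions, as a relation -/

variable (A F₀) in
/-- `r ∈ k((t))` is the reduction of the Gauss-integral series `f`:
`f · U₂ = U₁`, `U₂ ∈ L·F₀` primitive, `r · red U₂ = red U₁`. -/
def IsRedOf (f : LaurentSeries L) (r : LaurentSeries (IsLocalRing.ResidueField A)) : Prop :=
  ∃ U₁ U₂ : LaurentSeries A, red A U₂ ≠ 0 ∧ incl A U₂ ∈ laurentBaseChange L F₀ ∧
    f * incl A U₂ = incl A U₁ ∧ r * red A U₂ = red A U₁

theorem IsRedOf.isGaussInt {f : LaurentSeries L}
    {r : LaurentSeries (IsLocalRing.ResidueField A)} (h : IsRedOf A F₀ f r) :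
    IsGaussInt A F₀ f := by
  obtain ⟨U₁, U₂, hred, hmem, he, -⟩ := h
  exact ⟨U₁, U₂, hred, hmem, he⟩

theorem IsRedOf.exists_of_isGaussInt {f : LaurentSeries L} (h : IsGaussInt A F₀ f) :
    ∃ r, IsRedOf A F₀ f r := by
  obtain ⟨U₁, U₂, hred, hmem, he⟩ := h
  exact ⟨red A U₁ / red A U₂, U₁, U₂, hred, hmem, he, div_mul_cancel₀ _ hred⟩

omit [Algebra ℚ L] in
/-- cross-multiplication: two presentations of the same fraction have the same reduction. -/
theorem red_cross_h223 {f : LaurentSeries L} {U₁ U₂ W₁ W₂ : LaurentSeries A}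
    (he : f * incl A U₂ = incl A U₁) (he' : f * incl A W₂ = incl A W₁) :
    red A U₁ * red A W₂ = red A W₁ * red A U₂ := by
  have h : U₁ * W₂ = W₁ * U₂ := by
    apply incl_injective A
    rw [map_mul, map_mul, ← he, ← he']
    ring
  rw [← map_mul, ← map_mul, h]

/-- The reduction is unique (whatever the levels of the two presentations). -/
theorem IsRedOf.unique {f : LaurentSeries L}
    {r r' : LaurentSeries (IsLocalRing.ResidueField A)} (h : IsRedOf A F₀ f r)
    (h' : IsRedOf A F₁ f r') : r = r' := by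
  obtain ⟨U₁, U₂, hred, -, he, hr⟩ := h
  obtain ⟨W₁, W₂, hred', -, he', hr'⟩ := h'
  have hx := red_cross_h223 he he'
  have h1 : r * (red A U₂ * red A W₂) = r' * (red A U₂ * red A W₂) := by
    calc r * (red A U₂ * red A W₂) = (r * red A U₂) * red A W₂ := by ring
      _ = red A U₁ * red A W₂ := by rw [hr]
      _ = red A W₁ * red A U₂ := hx
      _ = (r' * red A W₂) * red A U₂ := by rw [hr']
      _ = r' * (red A U₂ * red A W₂) := by ring
  exact mul_right_cancel₀ (mul_ne_zero hred hred') h1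

/-- **(M6a, `α`, reductions)** `red (α f) = red f`. -/
theorem IsRedOf.of_le (h : F₀ ≤ F₁) {f : LaurentSeries L}
    {r : LaurentSeries (IsLocalRing.ResidueField A)} (hr : IsRedOf A F₀ f r) :
    IsRedOf A F₁ f r := by
  obtain ⟨U₁, U₂, hred, hmem, he, hr⟩ := hr
  exact ⟨U₁, U₂, hred, laurentBaseChange_mono_h223 L h hmem, he, hr⟩

/-- **(M6a, `β`, reductions)** `red (β f) = (red f)(t^n)`. -/
theorem IsRedOf.qExpand (n : ℕ) [NeZero n] (hF : ∀ y ∈ F₀, qExpand ℚ n y ∈ F₁)
    {f : LaurentSeries L} {r : LaurentSeries (IsLocalRing.ResidueField A)}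
    (hr : IsRedOf A F₀ f r) :
    IsRedOf A F₁ (ModularCurve.qExpand L n f)
      (ModularCurve.qExpand (IsLocalRing.ResidueField A) n r) := by
  obtain ⟨U₁, U₂, hred, hmem, he, hr⟩ := hr
  refine ⟨ModularCurve.qExpand A n U₁, ModularCurve.qExpand A n U₂,
    red_qExpand_ne_zero A n hred, ?_, ?_, ?_⟩
  · rw [incl_qExpand]
    exact qExpand_mem_laurentBaseChange_h223 n hF hmem
  · rw [incl_qExpand, incl_qExpand, ← map_mul, he]
  · rw [red_qExpand, red_qExpand, ← map_mul, hr]

/-- The reduction of a Gauss-integral `f` vanishes iff `f` is in the maximal ideal, in the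
elementwise form: `f = c · g` with `v(c) < 1` and `g` Gauss-integral. -/
theorem IsRedOf.eq_zero_iff (hgen : IntGen F₀) (hmax : AttainsMax A F₀) {f : LaurentSeries L}
    (hf : f ∈ laurentBaseChange L F₀) (hf0 : f ≠ 0)
    {r : LaurentSeries (IsLocalRing.ResidueField A)} (hr : IsRedOf A F₀ f r) :
    r = 0 ↔ ¬ IsGaussInt A F₀ f⁻¹ := by
  obtain ⟨c, U₁, U₂, hc, h₁, h₂, hm₁, hm₂, he⟩ := exists_normal_form hgen hmax hf hf0
  have hcA : c ∈ A := (isGaussInt_iff_of_normal_form h₁ h₂ hm₂ he).mp hr.isGaussInt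
  have hinv := isGaussInt_iff_of_normal_form (F₀ := F₀) h₂ h₁ hm₁ (normal_form_inv hf0 hc he)
  have hr' : IsRedOf A F₀ f (red A (cstA A ⟨c, hcA⟩ * U₁) / red A U₂) :=
    ⟨cstA A ⟨c, hcA⟩ * U₁, U₂, h₂, hm₂, by rw [map_mul, incl_cstA, he],
      div_mul_cancel₀ _ h₂⟩
  rw [hr.unique hr', hinv, div_eq_zero_iff, or_iff_left h₂, map_mul, mul_eq_zero,
    or_iff_left h₁, red_cstA]
  rw [show (HahnSeries.single (0 : ℤ) (IsLocalRing.residue A ⟨c, hcA⟩) = 0 ↔
      IsLocalRing.residue A ⟨c, hcA⟩ = 0) from HahnSeries.single_eq_zero_iff,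
    IsLocalRing.residue_eq_zero_iff]
  constructor
  · intro hmem hcinv
    have hu : IsUnit (⟨c, hcA⟩ : A) := by
      refine ⟨⟨⟨c, hcA⟩, ⟨c⁻¹, hcinv⟩, ?_, ?_⟩, rfl⟩
      · exact Subtype.ext (mul_inv_cancel₀ hc)
      · exact Subtype.ext (inv_mul_cancel₀ hc)
    exact (IsLocalRing.mem_maximalIdeal _).mp hmem hu
  · intro hcinv
    rw [IsLocalRing.mem_maximalIdeal, mem_nonunits_iff]
    rintro ⟨u, hu⟩
    apply hcinv
    have h1 : ((u⁻¹ : Aˣ) : A) * ⟨c, hcA⟩ = 1 := by rw [← hu]; exact u.inv_mul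
    have h2 : (((u⁻¹ : Aˣ) : A) : L) * c = 1 := congrArg Subtype.val h1
    have h3 : c⁻¹ = (((u⁻¹ : Aˣ) : A) : L) := by
      rw [eq_comm, ← mul_inv_eq_one₀ (inv_ne_zero hc), inv_inv]
      exact h2
    rw [h3]
    exact ((u⁻¹ : Aˣ) : A).2

end Gauss

/-! ## The modular instances: `heckeAlphaBar`, `heckeBetaBar` -/

section Modular

variable {L : Type*} [Field L] [Algebra ℚ L] (A : ValuationSubring L)
variable (N ℓ : ℕ) [NeZero N] [NeZero ℓ]

/-- **(M6a)** `α_ℓ f ∈ V∞(Nℓ) ↔ f ∈ V∞(N)`. -/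
theorem isGaussInt_heckeAlphaBar_iff (hgen : IntGen (modularFunctionFieldFull N))
    (hmax : AttainsMax A (modularFunctionFieldFull N))
    (f : laurentBaseChange L (modularFunctionFieldFull N)) :
    IsGaussInt A (modularFunctionFieldFull (N * ℓ))
        ((heckeAlphaBar L N ℓ f : laurentBaseChange L (modularFunctionFieldFull (N * ℓ))) :
          LaurentSeries L) ↔
      IsGaussInt A (modularFunctionFieldFull N) (f : LaurentSeries L) := by
  rw [coe_heckeAlphaBar]
  exact isGaussInt_iff_of_le hgen hmax (full_degeneracy_le (dvd_mul_right N ℓ)) f.2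

/-- **(M6a)** `β_ℓ f ∈ V∞(Nℓ) ↔ f ∈ V∞(N)`. -/
theorem isGaussInt_heckeBetaBar_iff (hgen : IntGen (modularFunctionFieldFull N))
    (hmax : AttainsMax A (modularFunctionFieldFull N))
    (f : laurentBaseChange L (modularFunctionFieldFull N)) :
    IsGaussInt A (modularFunctionFieldFull (N * ℓ))
        ((heckeBetaBar L N ℓ f : laurentBaseChange L (modularFunctionFieldFull (N * ℓ))) :
          LaurentSeries L) ↔
      IsGaussInt A (modularFunctionFieldFull N) (f : LaurentSeries L) := by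
  rw [coe_heckeBetaBar]
  exact isGaussInt_qExpand_iff hgen hmax ℓ
    (fun y hy => full_degeneracy_map_le (N := N) ℓ ⟨y, hy, rfl⟩) f.2

/-- **(M6a)** `red (α_ℓ f) = red f`. -/
theorem isRedOf_heckeAlphaBar (f : laurentBaseChange L (modularFunctionFieldFull N))
    {r : LaurentSeries (IsLocalRing.ResidueField A)}
    (hr : IsRedOf A (modularFunctionFieldFull N) (f : LaurentSeries L) r) :
    IsRedOf A (modularFunctionFieldFull (N * ℓ))
      ((heckeAlphaBar L N ℓ f : laurentBaseChange L (modularFunctionFieldFull (N * ℓ))) :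
        LaurentSeries L) r := by
  rw [coe_heckeAlphaBar]
  exact hr.of_le (full_degeneracy_le (dvd_mul_right N ℓ))

/-- **(M6a)** `red (β_ℓ f) = (red f)(t^ℓ)`. -/
theorem isRedOf_heckeBetaBar (f : laurentBaseChange L (modularFunctionFieldFull N))
    {r : LaurentSeries (IsLocalRing.ResidueField A)}
    (hr : IsRedOf A (modularFunctionFieldFull N) (f : LaurentSeries L) r) :
    IsRedOf A (modularFunctionFieldFull (N * ℓ))
      ((heckeBetaBar L N ℓ f : laurentBaseChange L (modularFunctionFieldFull (N * ℓ))) :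
        LaurentSeries L) (qExpand (IsLocalRing.ResidueField A) ℓ r) := by
  rw [coe_heckeBetaBar]
  exact hr.qExpand ℓ (fun y hy => full_degeneracy_map_le (N := N) ℓ ⟨y, hy, rfl⟩)

end Modular

end Fermat.Agent.Ribet.H223.M6a
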