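import Fermat.Agent.Ribet.H223.HeckeGauss
import Fermat.Agent.Ribet.H884.SlopeSpec
import Fermat.Agent.A2.H612.Kron

/-!
# Row 38, WALL-p, leaf M6a (helper223), official vocabulary of `Ribet/H884/SlopeSpec.lean`

The reductions `IsRedInf` (on `C∞`) and `IsRedZero` (on `C₀`) are compatible with the two
degeneracy maps `α_ℓ = heckeAlphaBar`, `β_ℓ = heckeBetaBar : FF N → FF (N ℓ)`, for EVERY `ℓ ≠ 0`
(also `ℓ ∣ N`, also `ℓ = p`), every level `N` and every valuation subring `A` of `ℚ̄`: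

* `isRedInf_alpha`  : `IsRedInf N A f r → IsRedInf (N ℓ) A (α f) r`;
* `isRedInf_beta`   : `IsRedInf N A f r → IsRedInf (N ℓ) A (β f) (r(t^ℓ))`;
* `isRedZero_alpha` : `IsRedZero N A f r → IsRedZero (N ℓ) A (α f) (r(t^ℓ))`;
* `isRedZero_beta`  : `IsRedZero N A f r → IsRedZero (N ℓ) A (β f) r`;
* `isRedInf_of_alpha`, `isRedInf_of_beta` : the converses (a reduction of `α f` is a reduction of
  `f`; a reduction of `β f` of the form `s(t^ℓ)` comes from the reduction `s` of `f`);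
* `isRedInf_congr` : `IsRedInf` only depends on the `t`-expansion.

(On `C∞` the map `α` is the identity on `t`-expansions and `β` is `t ↦ t^ℓ`; on `C₀` the roles are
exchanged by the Fricke involutions, `w_{Nℓ} ∘ α = β ∘ w_N`, `w_{Nℓ} ∘ β = α ∘ w_N`.)
-/

set_option autoImplicit false
set_option linter.unusedSectionVars false
set_option synthInstance.maxHeartbeats 400000
set_option maxHeartbeats 1000000

noncomputable section

namespace Fermat.Agent.Ribet.H223.M6a

open AlgebraicCurve ModularCurve HahnSeries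
open Fermat.Agent.S24 Fermat.Agent.A2.H708 Fermat.Agent.A2.H528
open Fermat.Agent.Ribet.H884

variable {N : ℕ} [NeZero N] {ℓ : ℕ} [NeZero ℓ] {A : ValuationSubring Kbar}

/-- `IsRedInf` only depends on the `t`-expansion (the level plays no role). -/
theorem isRedInf_congr {N' : ℕ} [NeZero N'] {f : FF N} {f' : FF N'}
    (h : (f' : LaurentSeries Kbar) = (f : LaurentSeries Kbar)) {r : LaurentSeries (kA A)}
    (hr : IsRedInf N A f r) : IsRedInf N' A f' r := by
  obtain ⟨c, U₁, U₂, hc, h₁, h₂, he, hred⟩ := hr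
  exact ⟨c, U₁, U₂, hc, h₁, h₂, by rw [h]; exact he, hred⟩

/-- **(M6a)** `red∞ (α f) = red∞ f`. -/
theorem isRedInf_alpha {f : FF N} {r : LaurentSeries (kA A)} (hr : IsRedInf N A f r) :
    IsRedInf (N * ℓ) A (heckeAlphaBar Kbar N ℓ f) r :=
  isRedInf_congr (coe_heckeAlphaBar N ℓ f) hr

/-- converse of `isRedInf_alpha`. -/
theorem isRedInf_of_alpha {f : FF N} {r : LaurentSeries (kA A)}
    (hr : IsRedInf (N * ℓ) A (heckeAlphaBar Kbar N ℓ f) r) : IsRedInf N A f r :=
  isRedInf_congr (coe_heckeAlphaBar N ℓ f).symm hr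

/-- series form of `isRedInf_beta`. -/
theorem isRedInf_qExpand {N' : ℕ} [NeZero N'] {f : FF N} {f' : FF N'}
    (h : (f' : LaurentSeries Kbar) = qExpand Kbar ℓ (f : LaurentSeries Kbar))
    {r : LaurentSeries (kA A)} (hr : IsRedInf N A f r) :
    IsRedInf N' A f' (qExpand (kA A) ℓ r) := by
  obtain ⟨c, U₁, U₂, hc, h₁, h₂, he, hred⟩ := hr
  refine ⟨c, qExpand A ℓ U₁, qExpand A ℓ U₂, hc, red_qExpand_ne_zero A ℓ h₁,
    red_qExpand_ne_zero A ℓ h₂, ?_, ?_⟩
  · rw [h, incl_qExpand, incl_qExpand, ← map_mul, he, map_mul, qExpand_cst]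
  · rw [red_qExpand, red_qExpand, ← map_mul, hred]

/-- **(M6a)** `red∞ (β f) = (red∞ f)(t^ℓ)`. -/
theorem isRedInf_beta {f : FF N} {r : LaurentSeries (kA A)} (hr : IsRedInf N A f r) :
    IsRedInf (N * ℓ) A (heckeBetaBar Kbar N ℓ f) (qExpand (kA A) ℓ r) :=
  isRedInf_qExpand (coe_heckeBetaBar N ℓ f) hr

/-- **(M6a)** `red₀ (β f) = red₀ f`  (`w_{Nℓ} ∘ β = α ∘ w_N`). -/
theorem isRedZero_beta {f : FF N} {r : LaurentSeries (kA A)} (hr : IsRedZero N A f r) :
    IsRedZero (N * ℓ) A (heckeBetaBar Kbar N ℓ f) r := by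
  have : NeZero (N * ℓ) := ⟨mul_ne_zero (NeZero.ne N) (NeZero.ne ℓ)⟩
  unfold IsRedZero at hr ⊢
  rw [Fermat.Agent.A2.H612.wF_heckeBetaBar]
  exact isRedInf_alpha hr

/-- **(M6a)** `red₀ (α f) = (red₀ f)(t^ℓ)`  (`w_{Nℓ} ∘ α = β ∘ w_N`). -/
theorem isRedZero_alpha {f : FF N} {r : LaurentSeries (kA A)} (hr : IsRedZero N A f r) :
    IsRedZero (N * ℓ) A (heckeAlphaBar Kbar N ℓ f) (qExpand (kA A) ℓ r) := by
  have : NeZero (N * ℓ) := ⟨mul_ne_zero (NeZero.ne N) (NeZero.ne ℓ)⟩
  unfold IsRedZero at hr ⊢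
  rw [Fermat.Agent.A2.H612.wF_heckeAlphaBar]
  exact isRedInf_beta hr

/-- A reduction of `f(t^ℓ)` of the form `s(t^ℓ)` comes from the reduction `s` of `f`. -/
theorem isRedInf_of_qExpand {N' : ℕ} [NeZero N'] {f : FF N} {f' : FF N'}
    (h : (f' : LaurentSeries Kbar) = qExpand Kbar ℓ (f : LaurentSeries Kbar))
    {p : ℕ} (hp0 : p ≠ 0) (hA : (p : Kbar) ∈ A.nonunits)
    {s : LaurentSeries (kA A)} (hr : IsRedInf N' A f' (qExpand (kA A) ℓ s)) :
    ∃ c : kA A, c ≠ 0 ∧ IsRedInf N A f (HahnSeries.C c * s) := by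
  have hf'0 : (f' : LaurentSeries Kbar) ≠ 0 := by
    obtain ⟨c, U₁, U₂, hc, h₁, h₂, he, -⟩ := hr
    intro h0
    rw [h0, zero_mul] at he
    rcases mul_eq_zero.mp he.symm with h' | h'
    · exact cst_ne_zero hc h'
    · exact incl_ne_zero A (ne_zero_of_red_ne_zero A h₁) h'
  have hf0 : (f : LaurentSeries Kbar) ≠ 0 := by
    intro h0
    rw [h0, map_zero] at h
    exact hf'0 h
  -- a normal form of `f`
  obtain ⟨c, U₁, U₂, hc, h₁, h₂, -, -, he⟩ :=
    exists_normal_form (A := A) (intGen_full N)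
      (attainsMax_Qbar hp0 hA (modularFunctionFieldFull N)) f.2 hf0
  have hr₀ : IsRedInf N A f (red A U₁ / red A U₂) :=
    ⟨c, U₁, U₂, hc, h₁, h₂, he, div_mul_cancel₀ _ h₂⟩
  have hr₁ : IsRedInf N' A f' (qExpand (kA A) ℓ (red A U₁ / red A U₂)) :=
    isRedInf_qExpand h hr₀
  -- compare the two reductions of `f'`
  obtain ⟨d, V₁, V₂, hd, k₁, k₂, he', hred'⟩ := hr
  obtain ⟨d', W₁, W₂, hd', l₁, l₂, he'', hred''⟩ := hr₁
  -- `d · V₁ · W₂ = d' · W₁ · V₂`
  have hcross : cst d * incl A (V₁ * W₂) = cst d' * incl A (W₁ * V₂) := by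
    rw [map_mul, map_mul]
    calc cst d * (incl A V₁ * incl A W₂) = (cst d * incl A V₁) * incl A W₂ := by ring
      _ = ((f' : LaurentSeries Kbar) * incl A V₂) * incl A W₂ := by rw [he']
      _ = ((f' : LaurentSeries Kbar) * incl A W₂) * incl A V₂ := by ring
      _ = (cst d' * incl A W₁) * incl A V₂ := by rw [he'']
      _ = cst d' * (incl A W₁ * incl A V₂) := by ring
  have hP₁ : red A (V₁ * W₂) ≠ 0 := by rw [map_mul]; exact mul_ne_zero k₁ l₂
  have hP₂ : red A (W₁ * V₂) ≠ 0 := by rw [map_mul]; exact mul_ne_zero l₁ k₂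
  -- the constant `e = d / d'` is a unit of `A`
  have hcross' : cst (d / d') * incl A (V₁ * W₂) = incl A (W₁ * V₂) := by
    have : cst (d / d') = cst d'⁻¹ * cst d := by rw [← cst_mul, div_eq_inv_mul]
    rw [this, mul_assoc, hcross, ← mul_assoc, cst_inv_mul_cst hd', one_mul]
  have hcross'' : cst (d' / d) * incl A (W₁ * V₂) = incl A (V₁ * W₂) := by
    have : cst (d' / d) = cst d⁻¹ * cst d' := by rw [← cst_mul, div_eq_inv_mul]
    rw [this, mul_assoc, ← hcross, ← mul_assoc, cst_inv_mul_cst hd, one_mul]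
  have he₁ : d / d' ∈ A := mem_of_cst_mul_prim A hP₁ hcross'
  have he₂ : d' / d ∈ A := mem_of_cst_mul_prim A hP₂ hcross''
  set e : A := ⟨d / d', he₁⟩ with hedef
  have hredc : red A (cstA A e * (V₁ * W₂)) = red A (W₁ * V₂) := by
    congr 1
    apply incl_injective A
    rw [map_mul, incl_cstA]
    exact hcross'
  have hres0 : IsLocalRing.residue A e ≠ 0 := by
    intro h0
    apply hP₂
    rw [← hredc, map_mul, red_cstA, h0]
    simp
  -- the relation between the two reductions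
  have hrel : HahnSeries.C (IsLocalRing.residue A e) * qExpand (kA A) ℓ s =
      qExpand (kA A) ℓ (red A U₁ / red A U₂) := by
    have h1 : HahnSeries.C (IsLocalRing.residue A e) * (red A V₁ * red A W₂) =
        red A W₁ * red A V₂ := by
      calc HahnSeries.C (IsLocalRing.residue A e) * (red A V₁ * red A W₂)
          = red A (cstA A e) * red A (V₁ * W₂) := by
            rw [red_cstA, map_mul]
            rfl
        _ = red A (cstA A e * (V₁ * W₂)) := (map_mul _ _ _).symm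
        _ = red A (W₁ * V₂) := hredc
        _ = red A W₁ * red A V₂ := map_mul _ _ _
    have h2 : (HahnSeries.C (IsLocalRing.residue A e) * qExpand (kA A) ℓ s) *
        (red A V₂ * red A W₂) =
        qExpand (kA A) ℓ (red A U₁ / red A U₂) * (red A V₂ * red A W₂) := by
      calc (HahnSeries.C (IsLocalRing.residue A e) * qExpand (kA A) ℓ s) *
            (red A V₂ * red A W₂)
          = HahnSeries.C (IsLocalRing.residue A e) *
              ((qExpand (kA A) ℓ s * red A V₂) * red A W₂) := by ring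
        _ = HahnSeries.C (IsLocalRing.residue A e) * (red A V₁ * red A W₂) := by rw [hred']
        _ = red A W₁ * red A V₂ := h1
        _ = (qExpand (kA A) ℓ (red A U₁ / red A U₂) * red A W₂) * red A V₂ := by rw [hred'']
        _ = qExpand (kA A) ℓ (red A U₁ / red A U₂) * (red A V₂ * red A W₂) := by ring
    exact mul_right_cancel₀ (mul_ne_zero k₂ l₂) h2
  have hrel' : qExpand (kA A) ℓ (HahnSeries.C (IsLocalRing.residue A e) * s) =
      qExpand (kA A) ℓ (red A U₁ / red A U₂) := by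
    rw [map_mul, qExpand_C]
    exact hrel
  have hs : HahnSeries.C (IsLocalRing.residue A e) * s = red A U₁ / red A U₂ :=
    qExpand_injective ℓ hrel'
  exact ⟨IsLocalRing.residue A e, hres0, by rw [hs]; exact hr₀⟩

/-- converse of `isRedInf_beta`, up to a nonzero constant. -/
theorem isRedInf_of_beta {f : FF N} {p : ℕ} (hp0 : p ≠ 0) (hA : (p : Kbar) ∈ A.nonunits)
    {s : LaurentSeries (kA A)}
    (hr : IsRedInf (N * ℓ) A (heckeBetaBar Kbar N ℓ f) (qExpand (kA A) ℓ s)) :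
    ∃ c : kA A, c ≠ 0 ∧ IsRedInf N A f (HahnSeries.C c * s) :=
  isRedInf_of_qExpand (coe_heckeBetaBar N ℓ f) hp0 hA hr

end Fermat.Agent.Ribet.H223.M6a
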