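import Fermat.Agent.Ribet.H223.KnormOff
import Fermat.Agent.Ribet.H376.I2Leaves
import Fermat.Agent.Ribet.H398.HeckeFun
import Fermat.Agent.Ribet.H939.ResField

/-!
# Row 38, WALL-p, W-EIS: the leaf **HECKE-NODE** (`H884.HeckeNodeGenStatement`)   (helper223)

`heckeNodeGen : Fermat.Agent.Ribet.H884.HeckeNodeGenStatement` — VERBATIM, unconditional.

`g = Nm_α(β f)` (`H398.coe_heckeNorm_eq_kronNorm`); its reductions are the Kronecker norms of the
reductions of `f` (`H376.heckeRed`, `H376.frickeHecke`); the residue field is algebraically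
closed of characteristic `p` (`H939.resField`); and the Kronecker norm preserves
"`p ∣ ord_Q` off the cusps" on `k(X₀(M'))` (`H223.HF.pDivFin_kronNorm`, the characteristic-`p`
Hecke correspondence of `HeckeFunCore.lean`).
-/

set_option autoImplicit false
set_option linter.unusedSectionVars false
set_option linter.style.haveILetI false
set_option synthInstance.maxHeartbeats 400000
set_option maxHeartbeats 1000000

noncomputable section

open AlgebraicCurve ModularCurve HahnSeries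
open Fermat.Agent.S24 Fermat.Agent.A2.H528 Fermat.Agent.Ribet.H884

namespace Fermat.Agent.Ribet.H223.HF

/-- **Leaf HECKE-NODE of W-EIS** (`H884.HeckeNodeGenStatement`, verbatim). -/
theorem heckeNodeGen : Fermat.Agent.Ribet.H884.HeckeNodeGenStatement := by
  intro p M' _ _ _ hp hpM A hA ℓ _ hℓN f g hg hNG
  obtain ⟨r₁, r₂, h1, h2, h3, h4⟩ := hNG
  obtain ⟨hAC, hCP⟩ := Fermat.Agent.Ribet.H939.resField p hp A hA
  haveI := hAC
  haveI := hCP
  have hgE : g = Fermat.Agent.Ribet.H944.I2.hNorm (p * M') (ℓ : ℕ) f := by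
    apply Subtype.ext
    rw [hg]
    exact (Fermat.Agent.Ribet.H398.coe_heckeNorm_eq_kronNorm (p * M') (ℓ : ℕ) ℓ.2 hℓN f).symm
  subst hgE
  refine ⟨Fermat.Agent.S37.H400.kronNorm (ℓ : ℕ) r₁, Fermat.Agent.S37.H400.kronNorm (ℓ : ℕ) r₂,
    ?_, ?_, pDivFin_kronNorm p M' hp hpM (kA A) (ℓ : ℕ) ℓ.2 hℓN h3,
    pDivFin_kronNorm p M' hp hpM (kA A) (ℓ : ℕ) ℓ.2 hℓN h4⟩
  · have h := Fermat.Agent.Ribet.H376.heckeRed (p * M') (ℓ : ℕ) ℓ.2 hℓN A f r₁ h1
    rwa [Fermat.Agent.Ribet.H376.knorm_eq_kronNorm] at h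
  · show IsRedInf (p * M') A (wF (p * M') (Fermat.Agent.Ribet.H944.I2.hNorm (p * M') (ℓ : ℕ) f)) _
    rw [← Fermat.Agent.Ribet.H376.frickeHecke (p * M') (ℓ : ℕ) ℓ.2 hℓN f]
    have h := Fermat.Agent.Ribet.H376.heckeRed (p * M') (ℓ : ℕ) ℓ.2 hℓN A (wF (p * M') f) r₂ h2
    rwa [Fermat.Agent.Ribet.H376.knorm_eq_kronNorm] at h

end Fermat.Agent.Ribet.H223.HF
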