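import Fermat.Agent.Ribet.H223.HeckeNode
import Fermat.Agent.Ribet.H158.WallQEis

/-!
# Row 37, WALL-q, EIS-q: the leaf **HECKE-NODE-q** (`H158.WallQ.HeckeNodeGenQStatement`)
  (helper223)

`heckeNodeGenQ : Fermat.Agent.Ribet.H158.WallQ.HeckeNodeGenQStatement` — VERBATIM, unconditional.

Same proof as `heckeNodeGen` (`HeckeNode.lean`): the residue characteristic is `q`, the
divisibility is by `p ≠ q`; the characteristic-free core
`H223.HF.exists_kronNorm_dvd_ord_of_nonneg` allows any modulus `n`.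
-/

set_option autoImplicit false
set_option linter.unusedSectionVars false
set_option linter.style.haveILetI false
set_option synthInstance.maxHeartbeats 400000
set_option maxHeartbeats 1000000

noncomputable section

open AlgebraicCurve ModularCurve HahnSeries
open Fermat.Agent.S24 Fermat.Agent.A2.H528 Fermat.Agent.Ribet.H884

namespace Fermat.Agent.Ribet.H223.HF

/-- `PDivFin n M'` is stable under the Kronecker norm, in characteristic `q ∤ M' ℓ` (any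
modulus `n`). -/
theorem pDivFin_kronNorm_of_charP (n q M' : ℕ) [NeZero M'] (hq : q.Prime) (hqM : ¬ q ∣ M')
    (k : Type) [Field k] [IsAlgClosed k] [CharP k q] (ℓ : ℕ) [NeZero ℓ] (hℓ : ℓ.Prime)
    (hℓq : ℓ ≠ q) (hℓM : ¬ ℓ ∣ M') {r : LaurentSeries k}
    (hr : Fermat.Agent.Ribet.H884.PDivFin n M' r) :
    Fermat.Agent.Ribet.H884.PDivFin n M' (Fermat.Agent.S37.H400.kronNorm ℓ r) := by
  obtain ⟨h₀, rfl, hh0, hdiv⟩ := hr
  obtain ⟨h', h1, h2, h3⟩ := exists_kronNorm_dvd_ord_of_nonneg hℓ hℓM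
    (hchar_of_charP k q hq hℓ hℓq hqM) (n : ℤ) h₀ hh0 hdiv
  exact ⟨h', h1, h2, h3⟩

/-- **Leaf HECKE-NODE-q of EIS-q** (`H158.WallQ.HeckeNodeGenQStatement`, verbatim). -/
theorem heckeNodeGenQ : Fermat.Agent.Ribet.H158.WallQ.HeckeNodeGenQStatement := by
  intro p q M' _ _ _ hp hq hqp hqM A hA ℓ _ hℓNp f g hg hNG
  have hℓN : ¬ (ℓ : ℕ) ∣ q * M' := fun h => hℓNp (dvd_mul_of_dvd_left h p)
  have hℓq : (ℓ : ℕ) ≠ q := fun h => hℓN (h ▸ dvd_mul_right _ _)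
  have hℓM : ¬ (ℓ : ℕ) ∣ M' := fun h => hℓN (Dvd.dvd.mul_left h q)
  obtain ⟨r₁, r₂, h1, h2, h3, h4⟩ := hNG
  obtain ⟨hAC, hCP⟩ := Fermat.Agent.Ribet.H939.resField q hq A hA
  haveI := hAC
  haveI := hCP
  have hgE : g = Fermat.Agent.Ribet.H944.I2.hNorm (q * M') (ℓ : ℕ) f := by
    apply Subtype.ext
    rw [hg]
    exact (Fermat.Agent.Ribet.H398.coe_heckeNorm_eq_kronNorm (q * M') (ℓ : ℕ) ℓ.2 hℓN f).symm
  subst hgE
  refine ⟨Fermat.Agent.S37.H400.kronNorm (ℓ : ℕ) r₁, Fermat.Agent.S37.H400.kronNorm (ℓ : ℕ) r₂,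
    ?_, ?_, pDivFin_kronNorm_of_charP p q M' hq hqM (kA A) (ℓ : ℕ) ℓ.2 hℓq hℓM h3,
    pDivFin_kronNorm_of_charP p q M' hq hqM (kA A) (ℓ : ℕ) ℓ.2 hℓq hℓM h4⟩
  · have h := Fermat.Agent.Ribet.H376.heckeRed (q * M') (ℓ : ℕ) ℓ.2 hℓN A f r₁ h1
    rwa [Fermat.Agent.Ribet.H376.knorm_eq_kronNorm] at h
  · show IsRedInf (q * M') A (wF (q * M') (Fermat.Agent.Ribet.H944.I2.hNorm (q * M') (ℓ : ℕ) f)) _
    rw [← Fermat.Agent.Ribet.H376.frickeHecke (q * M') (ℓ : ℕ) ℓ.2 hℓN f]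
    have h := Fermat.Agent.Ribet.H376.heckeRed (q * M') (ℓ : ℕ) ℓ.2 hℓN A (wF (q * M') f) r₂ h2
    rwa [Fermat.Agent.Ribet.H376.knorm_eq_kronNorm] at h

end Fermat.Agent.Ribet.H223.HF
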