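import Fermat.Agent.Ribet.H223.HeckeFunAdapter
import Fermat.Agent.Ribet.H704.EisSpec
import Fermat.Agent.Ribet.H884.EisSpec

/-!
# Row 38, WALL-p, (S4): the leaf **KNORM-OFF** (`H704.Eis.KnormOffStatement`) and its `H884` twin
  (helper223)

* `knormOff : Fermat.Agent.Ribet.H704.Eis.KnormOffStatement` — VERBATIM, unconditional;
* `pDivFin_kronNorm` : `H884.PDivFin p M' r → H884.PDivFin p M' (kronNorm ℓ r)` (the
  characteristic-`p` half of `H884.HeckeNodeGenStatement`).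

Both are `Fermat.Agent.Ribet.H223.HF.exists_kronNorm_dvd_ord_of_nonneg` (`HeckeFunCore.lean`):
norm formula for the separable extension `F_k(M'ℓ) / F_k(M')`, NORM-ID in characteristic `p`,
and integrality of `j(q^ℓ)` over `k[j]`.
-/

set_option autoImplicit false
set_option linter.unusedSectionVars false
set_option linter.style.haveILetI false

noncomputable section

open AlgebraicCurve ModularCurve HahnSeries

namespace Fermat.Agent.Ribet.H223.HF

/-- **KNORM-OFF** (leaf of `H704.Eis.eisSlope_of`), verbatim. -/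
theorem knormOff : Fermat.Agent.Ribet.H704.Eis.KnormOffStatement := by
  intro p M' _ hp hpM k _ _ _ ℓ _ hℓ hℓN r hr
  have hℓp : ℓ ≠ p := fun h => hℓN (h ▸ dvd_mul_right _ _)
  have hℓM : ¬ ℓ ∣ M' := fun h => hℓN (Dvd.dvd.mul_left h p)
  obtain ⟨h₀, rfl, hh0, hdiv⟩ := hr
  obtain ⟨h', h1, h2, h3⟩ := exists_knorm_dvd_ord_of_nonneg p M' ℓ hp hℓ hℓp hℓM hpM h₀ hh0 hdiv
  exact ⟨h', h1, h2, h3⟩

/-- The characteristic-`p` half of `H884.HeckeNodeGenStatement`. -/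
theorem pDivFin_kronNorm (p M' : ℕ) [NeZero M'] (hp : p.Prime) (hpM : ¬ p ∣ M')
    (k : Type) [Field k] [IsAlgClosed k] [CharP k p] (ℓ : ℕ) [NeZero ℓ] (hℓ : ℓ.Prime)
    (hℓN : ¬ ℓ ∣ p * M') {r : LaurentSeries k} (hr : Fermat.Agent.Ribet.H884.PDivFin p M' r) :
    Fermat.Agent.Ribet.H884.PDivFin p M' (Fermat.Agent.S37.H400.kronNorm ℓ r) := by
  have hℓp : ℓ ≠ p := fun h => hℓN (h ▸ dvd_mul_right _ _)
  have hℓM : ¬ ℓ ∣ M' := fun h => hℓN (Dvd.dvd.mul_left h p)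
  obtain ⟨h₀, rfl, hh0, hdiv⟩ := hr
  obtain ⟨h', h1, h2, h3⟩ := exists_kronNorm_dvd_ord_of_nonneg hℓ hℓM
    (hchar_of_charP k p hp hℓ hℓp hpM) (p : ℤ) h₀ hh0 hdiv
  exact ⟨h', h1, h2, h3⟩

end Fermat.Agent.Ribet.H223.HF
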