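import Fermat.Agent.Ribet.H223.HeckeFunAdapter
import Fermat.Agent.Ribet.H523.Q3Spec
import Fermat.Agent.Ribet.H939.ResField

/-!
# Row 37, WALL-q, (Q3): the leaf **KRON-FIELD** (`H523.Q3.KronFieldStatement`)   (helper223)

`kronField : Fermat.Agent.Ribet.H523.Q3.KronFieldStatement` — VERBATIM, unconditional.

Directly in characteristic `q` (no lift to characteristic `0`): for `u ∈ F_k = k(X₀(M))` the
series `kronNorm ℓ u` is the `t`-expansion of `N_{F_k(Mℓ)/F_k(M)}(u(t^ℓ))`
(`H223.HF.norm_betaHom_eq_kronNorm_of_char`, NORM-ID in every characteristic).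

The divisor statement (`div (kronNorm ℓ u) = T_ℓ (div u)` in the form "divisibility of the orders
is preserved") is `exists_kronNorm_dvd_ord_of_stable` in `HeckeFunCore.lean`.
-/

set_option autoImplicit false
set_option linter.unusedSectionVars false
set_option linter.style.haveILetI false
set_option synthInstance.maxHeartbeats 400000
set_option maxHeartbeats 1000000

noncomputable section

open AlgebraicCurve ModularCurve HahnSeries

namespace Fermat.Agent.Ribet.H223.HF

/-- The formal Kronecker norm preserves `F = k(j(q^d) : d ∣ N)` (`k` algebraically closed, the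
primes dividing `N ℓ` invertible in `k`, `ℓ ∤ N` prime). -/
theorem exists_eq_kronNorm {k : Type*} [Field k] [IsAlgClosed k] {N ℓ : ℕ} [NeZero N] [NeZero ℓ]
    (hℓ : ℓ.Prime) (hℓN : ¬ ℓ ∣ N) (hchar : ∀ r : ℕ, r.Prime → r ∣ N * ℓ → (r : k) ≠ 0)
    (h : modularFunctionFieldFullC k N) :
    ∃ h' : modularFunctionFieldFullC k N,
      (h' : LaurentSeries k) = Fermat.Agent.S37.H400.kronNorm ℓ (h : LaurentSeries k) := by
  rcases eq_or_ne h 0 with rfl | hh
  · refine ⟨0, ?_⟩
    rw [Fermat.Agent.S37.H400.kronNorm]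
    simp
  · obtain ⟨h', h1, -, -⟩ := exists_kronNorm_dvd_ord hℓ hℓN hchar 1 h hh (fun Q => one_dvd _)
    exact ⟨h', h1⟩

/-- **Leaf KRON-FIELD of (Q3)** (`H523.Q3.KronFieldStatement`, verbatim). -/
theorem kronField : Fermat.Agent.Ribet.H523.Q3.KronFieldStatement := by
  intro q M _ hq hqM A hA ℓ _ hℓ hℓM hℓq u
  obtain ⟨hAC, hCP⟩ := Fermat.Agent.Ribet.H939.resField q hq A hA
  haveI := hAC
  haveI := hCP
  exact exists_eq_kronNorm hℓ hℓM
    (hchar_of_charP (Fermat.Agent.Ribet.H884.kA A) q hq hℓ hℓq hqM) u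

end Fermat.Agent.Ribet.H223.HF
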